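import Fermat.Prelude.Def_AlgebraicCurve_BaseChangeGalois
import Mathlib.RingTheory.Valuation.ValuationSubring
import Mathlib.RingTheory.DedekindDomain.Basic
import Mathlib.RingTheory.DiscreteValuationRing.Basic

/-!
# Open stabilisers of places and divisor classes (abstract form)

`K ⊂ F` fields, a group `G` acting on `F` by semilinear automorphisms through
`ρ : G →* SemilinearAut K F`, and a family `𝒰` of subgroups of `G` ("open subgroups"), closed under
finite intersections.  If every element of `F` is fixed by a member of `𝒰` and every nonzero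
function has finitely many zeros, then every place and every divisor class of `F` is fixed by a
member of `𝒰`.
-/

set_option autoImplicit false

open AlgebraicCurve

namespace Fermat.Agent.S17

section places

variable {K F : Type*} [Field K] [Field F] [Algebra K F]

/-- A valuation subring containing a discrete valuation subring is equal to it or to `⊤`. -/
theorem valuationSubring_eq_of_le_of_dvr (R S : ValuationSubring F)
    [IsDiscreteValuationRing R] (h : R ≤ S) (hS : S ≠ ⊤) : S = R := by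
  have h1 := ValuationSubring.ofPrime_idealOfLE R S h
  by_cases hP : R.idealOfLE S h = ⊥
  · exfalso
    apply hS
    rw [← h1]
    have : R.ofPrime (R.idealOfLE S h) = R.ofPrime ⊥ := by
      congr 1
    rw [this, ValuationSubring.ofPrime_bot]
  · have hmax : (R.idealOfLE S h).IsMaximal :=
      Ring.DimensionLEOne.maximalOfPrime hP inferInstance
    have hP' : R.idealOfLE S h = IsLocalRing.maximalIdeal R :=
      IsLocalRing.eq_maximalIdeal hmax
    rw [← h1]
    have : R.ofPrime (R.idealOfLE S h) = R.ofPrime (IsLocalRing.maximalIdeal R) := by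
      congr 1
    rw [this, ValuationSubring.ofPrime_top]

/-- Two distinct places are not contained in one another. -/
theorem exists_mem_not_mem_of_place_ne {v w : Place K F} (h : v ≠ w) :
    ∃ f : F, f ∈ v.toValuationSubring ∧ f ∉ w.toValuationSubring := by
  by_contra hcon
  apply h
  have hle : v.toValuationSubring ≤ w.toValuationSubring := by
    intro f hf
    by_contra hfw
    exact hcon ⟨f, hf, hfw⟩
  exact Place.ext (valuationSubring_eq_of_le_of_dvr _ _ hle w.ne_top').symm

/-- A semilinear automorphism fixing the support of a divisor fixes its class. -/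
theorem pic0_smul_mk_eq_of_fix (g : SemilinearAut K F) (D : Divisor.degZero (K := K) (F := F))
    (h : ∀ v ∈ (D : Divisor K F).support, g • v = v) : g • Pic0.mk D = Pic0.mk D := by
  rw [SemilinearAut.pic0_smul_mk]
  have h2 : SemilinearAut.degZeroSMulHom g D = D := by
    apply Subtype.ext
    rw [SemilinearAut.coe_degZeroSMulHom, SemilinearAut.divisor_smul_def]
    have h3 := Finsupp.mapDomain_congr (v := (D : Divisor K F)) (f := (g • ·)) (g := id)
      (fun v hv => h v hv)
    rw [h3, Finsupp.mapDomain_id]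
  rw [h2]

variable {G : Type*} [Group G] (ρ : G →* SemilinearAut K F) (𝒰 : Set (Subgroup G))

/-- Finite intersections of members of `𝒰` contain a member of `𝒰`. -/
theorem exists_le_of_finite {ι : Type*} [Finite ι] (htop : ∃ U, U ∈ 𝒰)
    (hinf : ∀ U ∈ 𝒰, ∀ V ∈ 𝒰, ∃ W ∈ 𝒰, W ≤ U ⊓ V) (U : ι → Subgroup G) (hU : ∀ i, U i ∈ 𝒰) :
    ∃ W ∈ 𝒰, ∀ i, W ≤ U i := by
  classical
  induction ι using Finite.induction_empty_option with
  | of_equiv e ih =>
      obtain ⟨W, hW, h⟩ := ih (fun i => U (e i)) (fun i => hU _)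
      exact ⟨W, hW, fun i => by simpa using h (e.symm i)⟩
  | h_empty =>
      obtain ⟨W, hW⟩ := htop
      exact ⟨W, hW, fun i => i.elim⟩
  | h_option ih =>
      obtain ⟨W, hW, h⟩ := ih (fun i => U (some i)) (fun i => hU _)
      obtain ⟨W', hW', h'⟩ := hinf W hW (U none) (hU none)
      refine ⟨W', hW', fun i => ?_⟩
      cases i with
      | none => exact h'.trans inf_le_right
      | some i => exact (h'.trans inf_le_left).trans (h i)

/-- Every place is fixed by a member of `𝒰`. -/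
theorem exists_subgroup_fixing_place (htop : ∃ U, U ∈ 𝒰)
    (hinf : ∀ U ∈ 𝒰, ∀ V ∈ 𝒰, ∃ W ∈ 𝒰, W ≤ U ⊓ V)
    (helem : ∀ x : F, ∃ U ∈ 𝒰, ∀ σ ∈ U, ρ σ • x = x)
    (hZ : ∀ x : F, x ≠ 0 → {v : Place K F | 0 < v.ord x}.Finite)
    (v : Place K F) : ∃ U ∈ 𝒰, ∀ σ ∈ U, ρ σ • v = v := by
  classical
  obtain ⟨π, hπ⟩ := IsDiscreteValuationRing.exists_irreducible v.toValuationSubring
  have hπ0 : (π : F) ≠ 0 := by
    intro h
    exact hπ.ne_zero (Subtype.ext h)
  have hord : v.ord (π : F) = 1 := v.ord_coe_irreducible hπ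
  have hfin := hZ _ hπ0
  obtain ⟨Uπ, hUπ, hUπfix⟩ := helem (π : F)
  have hsep : ∀ w : Place K F, w ≠ v → ∃ U ∈ 𝒰, ∀ σ ∈ U, ρ σ • v ≠ w := by
    intro w hw
    obtain ⟨f, hfv, hfw⟩ := exists_mem_not_mem_of_place_ne (Ne.symm hw)
    obtain ⟨U, hU, hUfix⟩ := helem f
    refine ⟨U, hU, fun σ hσ heq => hfw ?_⟩
    have h1 : ρ σ • f ∈ (ρ σ • v).toValuationSubring := by
      rw [SemilinearAut.smul_toValuationSubring]
      exact ValuationSubring.smul_mem_pointwise_smul _ _ _ hfv
    rw [hUfix σ hσ, heq] at h1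
    exact h1
  choose! Uw hUw1 hUw2 using hsep
  haveI : Finite {w : Place K F // 0 < w.ord (π : F) ∧ w ≠ v} :=
    Set.Finite.subset hfin (fun w hw => hw.1)
  obtain ⟨W, hW, hWle⟩ := exists_le_of_finite 𝒰 htop hinf
    (fun w : {w : Place K F // 0 < w.ord (π : F) ∧ w ≠ v} => Uw w.1)
    (fun w => hUw1 w.1 w.2.2)
  obtain ⟨W', hW', hW'le⟩ := hinf Uπ hUπ W hW
  refine ⟨W', hW', fun σ hσ => ?_⟩
  by_contra hne
  have hσπ : σ ∈ Uπ := (hW'le.trans inf_le_left) hσ
  have hσW : σ ∈ W := (hW'le.trans inf_le_right) hσ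
  have hw : 0 < (ρ σ • v).ord (π : F) := by
    have h := SemilinearAut.ord_smul (ρ σ) v (π : F)
    rw [hUπfix σ hσπ] at h
    rw [h, hord]
    exact one_pos
  exact hUw2 _ hne σ (hWle ⟨ρ σ • v, hw, hne⟩ hσW) rfl

/-- Every divisor class of degree zero is fixed by a member of `𝒰`. -/
theorem exists_subgroup_fixing_class (htop : ∃ U, U ∈ 𝒰)
    (hinf : ∀ U ∈ 𝒰, ∀ V ∈ 𝒰, ∃ W ∈ 𝒰, W ≤ U ⊓ V)
    (helem : ∀ x : F, ∃ U ∈ 𝒰, ∀ σ ∈ U, ρ σ • x = x)
    (hZ : ∀ x : F, x ≠ 0 → {v : Place K F | 0 < v.ord x}.Finite)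
    (y : Pic0 K F) : ∃ U ∈ 𝒰, ∀ σ ∈ U, ρ σ • y = y := by
  classical
  obtain ⟨D, rfl⟩ := Pic0.mk_surjective y
  choose Uv hUv1 hUv2 using exists_subgroup_fixing_place ρ 𝒰 htop hinf helem hZ
  obtain ⟨W, hW, hWle⟩ := exists_le_of_finite 𝒰 htop hinf
    (fun v : ((D : Divisor K F).support : Set (Place K F)) => Uv v.1) (fun v => hUv1 v.1)
  refine ⟨W, hW, fun σ hσ => ?_⟩
  exact pic0_smul_mk_eq_of_fix (ρ σ) D (fun v hv => hUv2 v σ (hWle ⟨v, hv⟩ hσ))

end places

end Fermat.Agent.S17
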