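import Fermat.Agent.S17.WeakMW
import Fermat.Agent.S17.OpenStabAbstract
import Mathlib.Topology.Algebra.Group.ClosedSubgroup
import Mathlib.GroupTheory.GroupAction.Quotient

/-!
# S17 / G-TOR package GAL: every point of `J₀(N)(ℚ̄)` has an open stabiliser

`open_stab_of_zeros_finite` : if every nonzero function of `F = ℚ̄ · F₀ ⊂ ℚ̄((q))` has finitely many
zeros (S24 function-field layer, FF1b), then every class in `Pic⁰(F)` is fixed by
`Gal(ℚ̄/E)` for some number field `E`.

Proof. (a) Every element of `F` is fixed by an open subgroup (finitely many coefficients).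
(b) The stabiliser of a place is closed (intersection of clopen conditions, by (a)).
(c) The orbit of a place `v` is finite: a uniformiser `π` of `v` is fixed by an open subgroup
`U`, and `U • v` lies in the finite set of zeros of `π`.  Closed + finite index ⇒ open.
-/

set_option autoImplicit false

open ModularCurve AlgebraicCurve IntermediateField

namespace Fermat.Agent.S17

attribute [local instance] qbar_isAlgebraic qbar_isAlgClosure qbar_isGalois

variable (F₀ : IntermediateField ℚ (LaurentSeries ℚ))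

/-- (a) Every element of `ℚ̄ · F₀` is fixed by `Gal(ℚ̄/E)` for a number field `E`. -/
theorem exists_field_fixing_elem
    (x : ↥(laurentBaseChange (AlgebraicClosure ℚ) F₀)) :
    ∃ E : IntermediateField ℚ (AlgebraicClosure ℚ), FiniteDimensional ℚ E ∧
      ∀ σ ∈ E.fixingSubgroup, arithmeticGalois F₀ σ • x = x := by
  obtain ⟨x, hx⟩ := x
  suffices h : ∃ E : IntermediateField ℚ (AlgebraicClosure ℚ), FiniteDimensional ℚ E ∧
      ∀ σ ∈ E.fixingSubgroup, coeffMap ((σ : GQ) : AlgebraicClosure ℚ →+* AlgebraicClosure ℚ) x = x by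
    obtain ⟨E, hE, h⟩ := h
    exact ⟨E, hE, fun σ hσ => Subtype.ext (h σ hσ)⟩
  rw [mem_laurentBaseChange_iff] at hx
  induction hx using Subfield.closure_induction with
  | mem y hy =>
      rcases hy with ⟨a, rfl⟩ | ⟨z, hz, rfl⟩
      · refine ⟨ℚ⟮a⟯, IntermediateField.adjoin.finiteDimensional
          (Algebra.IsIntegral.isIntegral a), fun σ hσ => ?_⟩
        rw [coeffMap_algebraMap]
        congr 1
        have := (IntermediateField.mem_fixingSubgroup_iff _ _).1 hσ a
          (IntermediateField.mem_adjoin_simple_self ℚ a)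
        exact this
      · exact ⟨⊥, inferInstance, fun σ _ => coeffMap_coeffEmb σ z⟩
  | one => exact ⟨⊥, inferInstance, fun σ _ => map_one _⟩
  | add x y _ _ hx hy =>
      obtain ⟨E₁, h₁, hx⟩ := hx
      obtain ⟨E₂, h₂, hy⟩ := hy
      refine ⟨E₁ ⊔ E₂, IntermediateField.finiteDimensional_sup E₁ E₂, fun σ hσ => ?_⟩
      rw [map_add, hx σ (IntermediateField.fixingSubgroup_antitone le_sup_left hσ),
        hy σ (IntermediateField.fixingSubgroup_antitone le_sup_right hσ)]
  | neg x _ hx =>
      obtain ⟨E₁, h₁, hx⟩ := hx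
      exact ⟨E₁, h₁, fun σ hσ => by rw [map_neg, hx σ hσ]⟩
  | inv x _ hx =>
      obtain ⟨E₁, h₁, hx⟩ := hx
      exact ⟨E₁, h₁, fun σ hσ => by rw [map_inv₀, hx σ hσ]⟩
  | mul x y _ _ hx hy =>
      obtain ⟨E₁, h₁, hx⟩ := hx
      obtain ⟨E₂, h₂, hy⟩ := hy
      refine ⟨E₁ ⊔ E₂, IntermediateField.finiteDimensional_sup E₁ E₂, fun σ hσ => ?_⟩
      rw [map_mul, hx σ (IntermediateField.fixingSubgroup_antitone le_sup_left hσ),
        hy σ (IntermediateField.fixingSubgroup_antitone le_sup_right hσ)]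

/-- Finiteness of zeros (S24 function-field layer FF1b + FF1c). -/
def ZerosFinite : Prop :=
  ∀ x : ↥(laurentBaseChange (AlgebraicClosure ℚ) F₀), x ≠ 0 →
    {v : Place (AlgebraicClosure ℚ) ↥(laurentBaseChange (AlgebraicClosure ℚ) F₀) |
      0 < v.ord x}.Finite

/-- The fixing subgroups of number fields. -/
def openFamily : Set (Subgroup GQ) :=
  {U | ∃ E : IntermediateField ℚ (AlgebraicClosure ℚ), FiniteDimensional ℚ E ∧
    U = E.fixingSubgroup}

theorem openFamily_nonempty : ∃ U, U ∈ openFamily :=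
  ⟨_, ⊥, inferInstance, rfl⟩

theorem openFamily_inf : ∀ U ∈ openFamily, ∀ V ∈ openFamily, ∃ W ∈ openFamily, W ≤ U ⊓ V := by
  rintro U ⟨E₁, h₁, rfl⟩ V ⟨E₂, h₂, rfl⟩
  refine ⟨_, ⟨E₁ ⊔ E₂, IntermediateField.finiteDimensional_sup E₁ E₂, rfl⟩, ?_⟩
  rw [IntermediateField.fixingSubgroup_sup]

/-- Every divisor class of `ℚ̄ · F₀` is fixed by `Gal(ℚ̄/E)` for a number field `E`. -/
theorem exists_field_fixing_class (hZ : ZerosFinite F₀)
    (y : Pic0 (AlgebraicClosure ℚ) ↥(laurentBaseChange (AlgebraicClosure ℚ) F₀)) :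
    ∃ E : IntermediateField ℚ (AlgebraicClosure ℚ), FiniteDimensional ℚ E ∧
      ∀ σ ∈ E.fixingSubgroup, arithmeticGalois F₀ σ • y = y := by
  have helem : ∀ x : ↥(laurentBaseChange (AlgebraicClosure ℚ) F₀),
      ∃ U ∈ openFamily, ∀ σ ∈ U, arithmeticGalois F₀ σ • x = x := by
    intro x
    obtain ⟨E, hE, h⟩ := exists_field_fixing_elem F₀ x
    exact ⟨_, ⟨E, hE, rfl⟩, h⟩
  obtain ⟨U, ⟨E, hE, rfl⟩, h⟩ := exists_subgroup_fixing_class (arithmeticGalois F₀) openFamily
    openFamily_nonempty openFamily_inf helem hZ y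
  exact ⟨E, hE, h⟩

/-- Finiteness of zeros for the function field of `X₀(N)` over `ℚ̄`. -/
def Stmt_zeros_finite (N : ℕ) : Prop := ZerosFinite (modularFunctionFieldFull N)

/-- W4 / GAL from the function-field layer. -/
theorem open_stab_of_zeros_finite (N : ℕ) (hZ : Stmt_zeros_finite N) : Stmt_open_stab N :=
  fun y => exists_field_fixing_class (modularFunctionFieldFull N) hZ y

end Fermat.Agent.S17
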