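import Fermat.Agent.S17.WeakMW
import Fermat.Agent.S17.OpenStab
import Fermat.Agent.GTor.H81_Uncond
import Fermat.Agent.GTor.H56_FinUnr

/-!
# S17, packages W1 and W4 (helper8)

* `stmt_torsion_finite N n hn : Stmt_torsion_finite N n` (W1): `J₀(N)[n]` is finite, from the
  unconditional G-TOR isomorphism `J₀(N)[n] ≃ Hom_pe(Γ₀(N), ℤ/n)`.
* `stmt_open_stab N : Stmt_open_stab N` (W4): every point of `J₀(N)(ℚ̄)` has an open stabiliser.
-/

set_option autoImplicit false

noncomputable section

namespace Fermat.Agent.S17.H8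

open AlgebraicCurve ModularCurve Fermat.Agent.GTor CongruenceSubgroup

/-- **W1**: the `n`-torsion of `J₀(N)(ℚ̄)` is finite. -/
theorem stmt_torsion_finite (N n : ℕ) [NeZero N] (hn : n ≠ 0) :
    Fermat.Agent.S17.Stmt_torsion_finite N n := by
  obtain ⟨e⟩ := H81.stmt_TOR_uncond N n hn
  have : NeZero n := ⟨hn⟩
  have := H56.groupFG_Gamma0' N
  have : Finite (Additive ↥(Gamma0 N) →+ ZMod n) := H56.finite_addMonoidHom_of_fg _ _
  have : Finite ↥(homPE (Gamma0 N) (ZMod n)) := Subtype.finite
  have : Finite (Pic0.torsion (AlgebraicClosure ℚ) (modularFunctionFieldBar N) n) :=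
    Finite.of_equiv _ e.symm.toEquiv
  have hfin : (Set.range (Subtype.val :
      Pic0.torsion (AlgebraicClosure ℚ) (modularFunctionFieldBar N) n → JZero N)).Finite :=
    Set.finite_range _
  refine hfin.subset ?_
  intro x hx
  refine ⟨⟨x, ?_⟩, rfl⟩
  rw [Pic0.mem_torsion]
  have hx' : n • x = 0 := hx
  exact hx'

/-- Every nonzero function of `ℚ̄(X₀(N))` has finitely many zeros. -/
theorem stmt_zeros_finite (N : ℕ) [NeZero N] : Fermat.Agent.S17.Stmt_zeros_finite N := by
  intro x hx
  have := H33.hasPrincipalDivisors_FNL (AlgebraicClosure ℚ) N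
  obtain ⟨D, hD, -⟩ := HasPrincipalDivisors.exists_divisor (K := AlgebraicClosure ℚ) x hx
  refine D.support.finite_toSet.subset fun v hv => ?_
  have h0 : 0 < v.ord x := hv
  rw [Finset.mem_coe, Finsupp.mem_support_iff, hD v]
  exact h0.ne'

/-- **W4**: every point of `J₀(N)(ℚ̄)` is fixed by the Galois group of a number field. -/
theorem stmt_open_stab (N : ℕ) [NeZero N] : Fermat.Agent.S17.Stmt_open_stab N :=
  Fermat.Agent.S17.open_stab_of_zeros_finite N (stmt_zeros_finite N)

end Fermat.Agent.S17.H8
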