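import Mathlib.GroupTheory.Index
import Mathlib.GroupTheory.Coset.Basic
import Mathlib.Algebra.Group.Action.Defs
import Mathlib.Algebra.GroupWithZero.Action.Defs
import Mathlib.Algebra.Ring.Action.Submonoid
import Mathlib.Data.Set.Finite.Lattice
import Mathlib.Data.Fintype.Pi
import Mathlib.GroupTheory.QuotientGroup.Finite
import Mathlib.Tactic.Abel

/-!
# Abstract weak Mordell–Weil (Kummer/cohomological finiteness argument)

`G` acts on an additive commutative group `J`.  If the `n`-torsion of `J` is finite, every fixed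
point is `n`-divisible in `J`, and one subgroup `K` of finite index fixes every `n`-th root of every
fixed point, then `J^G / n J^G` is finite.
-/

set_option autoImplicit false

namespace Fermat.Agent.S17

open scoped Pointwise

variable {G J : Type*} [Group G] [AddCommGroup J] [DistribMulAction G J]

/-- Abstract weak Mordell–Weil. -/
theorem abstract_weakMW (n : ℕ)
    (hT : {t : J | n • t = 0}.Finite)
    (hdiv : ∀ x : J, (∀ σ : G, σ • x = x) → ∃ y : J, n • y = x)
    (K : Subgroup G) (hK : K.FiniteIndex)
    (hfix : ∀ y : J, (∀ τ : G, τ • (n • y) = n • y) → ∀ σ ∈ K, σ • y = y) :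
    (nsmulAddMonoidHom (α := ↥(FixedPoints.addSubgroup G J)) n).range.FiniteIndex := by
  classical
  -- choice of an `n`-th root
  have hroot : ∀ x : ↥(FixedPoints.addSubgroup G J), ∃ y : J, n • y = (x : J) := fun x =>
    hdiv x (fun σ => x.2 σ)
  choose y hy using hroot
  have hxfix : ∀ (x : ↥(FixedPoints.addSubgroup G J)) (τ : G), τ • (n • y x) = n • y x := by
    intro x τ
    rw [hy x]
    exact x.2 τ
  have : Finite (G ⧸ K) := Subgroup.finite_quotient_of_finiteIndex
  -- the cocycle on coset representatives
  let ψ : ↥(FixedPoints.addSubgroup G J) → (G ⧸ K → J) :=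
    fun x q => (Quotient.out q : G) • y x - y x
  have hψT : ∀ x q, ψ x q ∈ {t : J | n • t = 0} := by
    intro x q
    show n • ((Quotient.out q : G) • y x - y x) = 0
    rw [smul_sub]
    rw [← hxfix x (Quotient.out q), smul_comm (Quotient.out q : G) n (y x)]
    simp
  have hfin : (Set.range ψ).Finite := by
    refine Set.Finite.subset (Set.Finite.pi' (fun _ : G ⧸ K => hT)) ?_
    rintro f ⟨x, rfl⟩ q
    exact hψT x q
  -- the cocycle itself is determined by `ψ`
  have hcoc : ∀ (x : ↥(FixedPoints.addSubgroup G J)) (σ : G),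
      σ • y x = (Quotient.out (QuotientGroup.mk σ : G ⧸ K) : G) • y x := by
    intro x σ
    set r : G := Quotient.out (QuotientGroup.mk σ : G ⧸ K) with hr
    have hmem : r⁻¹ * σ ∈ K := by
      have : (QuotientGroup.mk r : G ⧸ K) = QuotientGroup.mk σ := by
        rw [hr]; exact Quotient.out_eq _
      exact QuotientGroup.eq.1 this
    have h1 := hfix (y x) (hxfix x) _ hmem
    calc σ • y x = (r * (r⁻¹ * σ)) • y x := by rw [mul_inv_cancel_left]
      _ = r • ((r⁻¹ * σ) • y x) := mul_smul _ _ _
      _ = r • y x := by rw [h1]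
  have hkey : ∀ x x' : ↥(FixedPoints.addSubgroup G J), ψ x = ψ x' →
      x - x' ∈ (nsmulAddMonoidHom (α := ↥(FixedPoints.addSubgroup G J)) n).range := by
    intro x x' h
    have hz : ∀ σ : G, σ • (y x - y x') = y x - y x' := by
      intro σ
      have h2 := congrFun h (QuotientGroup.mk σ : G ⧸ K)
      simp only [ψ] at h2
      rw [smul_sub, hcoc x σ, hcoc x' σ]
      have : (Quotient.out (QuotientGroup.mk σ : G ⧸ K) : G) • y x
          = (Quotient.out (QuotientGroup.mk σ : G ⧸ K) : G) • y x' + (y x - y x') := by
        have := sub_eq_sub_iff_add_eq_add.1 h2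
        rw [sub_eq_iff_eq_add] at h2
        rw [h2]; abel
      rw [this]; abel
    refine ⟨⟨y x - y x', fun σ => hz σ⟩, ?_⟩
    apply Subtype.ext
    simp only [nsmulAddMonoidHom_apply, AddSubgroup.coe_nsmul, AddSubgroup.coe_sub, smul_sub]
    rw [hy x, hy x']
  -- finiteness of the quotient
  set H := (nsmulAddMonoidHom (α := ↥(FixedPoints.addSubgroup G J)) n).range with hH
  haveI : Finite (Set.range ψ) := hfin
  have hinj : Function.Injective
      (fun q : ↥(FixedPoints.addSubgroup G J) ⧸ H =>
        (⟨ψ (Quotient.out q), Set.mem_range_self _⟩ : Set.range ψ)) := by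
    intro q q' h
    have h' : ψ (Quotient.out q) = ψ (Quotient.out q') := congrArg Subtype.val h
    have h3 := hkey _ _ h'
    have h4 : (QuotientAddGroup.mk (Quotient.out q) : ↥(FixedPoints.addSubgroup G J) ⧸ H)
        = QuotientAddGroup.mk (Quotient.out q') := by
      rw [QuotientAddGroup.eq]
      have : -(Quotient.out q) + Quotient.out q' = -(Quotient.out q - Quotient.out q') := by abel
      rw [this]
      exact H.neg_mem h3
    have e1 : (QuotientAddGroup.mk (Quotient.out q) : ↥(FixedPoints.addSubgroup G J) ⧸ H) = q :=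
      Quotient.out_eq q
    have e2 : (QuotientAddGroup.mk (Quotient.out q') : ↥(FixedPoints.addSubgroup G J) ⧸ H) = q' :=
      Quotient.out_eq q'
    rw [← e1, ← e2, h4]
  haveI : Finite (↥(FixedPoints.addSubgroup G J) ⧸ H) := Finite.of_injective _ hinj
  exact AddSubgroup.finiteIndex_of_finite_quotient

end Fermat.Agent.S17
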