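import Fermat.Agent.S17.Wiring
import Fermat.Agent.S17.AbstractWMW
import Fermat.Prelude.Def_FLTPrelim_Ramification
import Mathlib.FieldTheory.Galois.Infinite
import Mathlib.FieldTheory.IsSepClosed
import Mathlib.FieldTheory.Perfect
import Mathlib.FieldTheory.IsAlgClosed.AlgebraicClosure
import Mathlib.Algebra.CharZero.Infinite
import Mathlib.GroupTheory.Perm.Basic
import Mathlib.Data.Fintype.Perm

/-!
# S17, part W: weak Mordell–Weil for `J₀(N)` from five explicit inputs

* `Stmt_torsion_finite N n` (W1): `J₀(N)[n]` is finite.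
* `Stmt_divisible N n`      (W2): every rational point is `n`-divisible in `J₀(N)(ℚ̄)`.
* `Stmt_unram N n`          (W3): inertia at `ℓ ∤ nN` fixes every `n`-th root of a rational point.
* `Stmt_open_stab N`        (W4): every point of `J₀(N)(ℚ̄)` has an open stabiliser.
* `Stmt_HM`                 (W5): Hermite–Minkowski (finitely many number fields of bounded degree
  unramified outside a finite set of primes).

`weakMW_of_inputs : W1 → W2 → W3 → W4 → W5 → Stmt_weakMW N n`.
-/

set_option autoImplicit false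

open ModularCurve AlgebraicCurve IntermediateField

namespace Fermat.Agent.S17

theorem qbar_isAlgebraic : Algebra.IsAlgebraic ℚ (AlgebraicClosure ℚ) :=
  AlgebraicClosure.isAlgebraic ℚ

attribute [local instance] qbar_isAlgebraic

theorem qbar_isAlgClosure : IsAlgClosure ℚ (AlgebraicClosure ℚ) :=
  ⟨inferInstance, inferInstance⟩

attribute [local instance] qbar_isAlgClosure

theorem qbar_isGalois : IsGalois ℚ (AlgebraicClosure ℚ) := inferInstance

attribute [local instance] qbar_isGalois

/-- W1: the `n`-torsion of `J₀(N)(ℚ̄)` is finite. -/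
def Stmt_torsion_finite (N n : ℕ) : Prop := {t : JZero N | n • t = 0}.Finite

/-- W2: every Galois-fixed point of `J₀(N)(ℚ̄)` is `n`-divisible in `J₀(N)(ℚ̄)`. -/
def Stmt_divisible (N n : ℕ) : Prop :=
  ∀ x : JZero N, (∀ σ : GQ, σ • x = x) → ∃ y : JZero N, n • y = x

/-- W3: for `ℓ ∤ n N`, inertia at `ℓ` fixes every `n`-th root of every rational point. -/
def Stmt_unram (N n : ℕ) : Prop :=
  ∀ ℓ : ℕ, ℓ.Prime → ¬ ℓ ∣ n * N → ∀ A : ValuationSubring (AlgebraicClosure ℚ),
    A.LiesOverPrime ℓ → ∀ σ ∈ A.inertiaSubgroupIn ℚ, ∀ y : JZero N,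
      (∀ τ : GQ, τ • (n • y) = n • y) → σ • y = y

/-- W4: every point of `J₀(N)(ℚ̄)` is fixed by the Galois group of some number field. -/
def Stmt_open_stab (N : ℕ) : Prop :=
  ∀ y : JZero N, ∃ F : IntermediateField ℚ (AlgebraicClosure ℚ), FiniteDimensional ℚ F ∧
    ∀ σ ∈ F.fixingSubgroup, σ • y = y

/-- W5: Hermite–Minkowski. -/
def Stmt_HM : Prop :=
  ∀ B d : ℕ, B ≠ 0 →
    {F : IntermediateField ℚ (AlgebraicClosure ℚ) | FiniteDimensional ℚ F ∧
      Module.finrank ℚ F ≤ d ∧
      ∀ ℓ : ℕ, ℓ.Prime → ¬ ℓ ∣ B → ∀ A : ValuationSubring (AlgebraicClosure ℚ),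
        A.LiesOverPrime ℓ → A.inertiaSubgroupIn ℚ ≤ F.fixingSubgroup}.Finite

section abstract_stabiliser

variable {G J : Type*} [Group G] [AddCommGroup J] [DistribMulAction G J]

/-- The pointwise stabiliser of the fibre `y + J[n]`. -/
def fibreStab (n : ℕ) (y : J) : Subgroup G where
  carrier := {σ | ∀ t : J, n • t = 0 → σ • (y + t) = y + t}
  one_mem' := fun t _ => one_smul _ _
  mul_mem' := by
    intro a b ha hb t ht
    rw [mul_smul, hb t ht, ha t ht]
  inv_mem' := by
    intro a ha t ht
    have := ha t ht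
    calc a⁻¹ • (y + t) = a⁻¹ • (a • (y + t)) := by rw [this]
      _ = y + t := inv_smul_smul _ _

theorem mem_fibreStab {n : ℕ} {y : J} {σ : G} :
    σ ∈ fibreStab (G := G) n y ↔ ∀ t : J, n • t = 0 → σ • (y + t) = y + t := Iff.rfl

/-- The index of the fibre stabiliser is at most `(#J[n])!`. -/
theorem index_fibreStab_le (n : ℕ) (y : J) (hy : ∀ τ : G, τ • (n • y) = n • y)
    (hT : {t : J | n • t = 0}.Finite) :
    (fibreStab (G := G) n y).index ≤ (Nat.card {t : J // n • t = 0}).factorial ∧
      (fibreStab (G := G) n y).index ≠ 0 := by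
  classical
  haveI : Finite {t : J // n • t = 0} := hT
  -- the action on the torsion, twisted by `y`
  have hmem : ∀ (σ : G) (t : J), n • t = 0 → n • (σ • (y + t) - y) = 0 := by
    intro σ t ht
    rw [smul_sub, smul_comm n σ (y + t), smul_add, ht, add_zero, hy σ, sub_self]
  let act : G → {t : J // n • t = 0} → {t : J // n • t = 0} :=
    fun σ t => ⟨σ • (y + t.1) - y, hmem σ t.1 t.2⟩
  have act_one : ∀ t, act 1 t = t := by
    intro t; apply Subtype.ext; simp [act]
  have act_mul : ∀ σ τ t, act (σ * τ) t = act σ (act τ t) := by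
    intro σ τ t; apply Subtype.ext
    simp only [act, add_sub_cancel, mul_smul]
  let ρ : G →* Equiv.Perm {t : J // n • t = 0} :=
    { toFun := fun σ =>
        { toFun := act σ
          invFun := act σ⁻¹
          left_inv := fun t => by rw [← act_mul, inv_mul_cancel, act_one]
          right_inv := fun t => by rw [← act_mul, mul_inv_cancel, act_one] }
      map_one' := by ext t; simp [act]
      map_mul' := fun σ τ => by
        ext t
        simp only [Equiv.coe_fn_mk, Equiv.Perm.coe_mul, Function.comp_apply]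
        exact congrArg Subtype.val (act_mul σ τ t) }
  have hker : ρ.ker = fibreStab (G := G) n y := by
    ext σ
    rw [MonoidHom.mem_ker, mem_fibreStab]
    constructor
    · intro h t ht
      have := congrArg (fun e : Equiv.Perm {t : J // n • t = 0} => (e ⟨t, ht⟩).1) h
      simp only [ρ, act, MonoidHom.coe_mk, OneHom.coe_mk, Equiv.coe_fn_mk,
        Equiv.Perm.coe_one, id_eq] at this
      exact sub_eq_iff_eq_add'.1 this
    · intro h
      ext t
      simp only [ρ, act, MonoidHom.coe_mk, OneHom.coe_mk, Equiv.coe_fn_mk,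
        Equiv.Perm.coe_one, id_eq]
      rw [h t.1 t.2, add_sub_cancel_left]
  haveI : Fintype {t : J // n • t = 0} := Fintype.ofFinite _
  have hcard : Nat.card (Equiv.Perm {t : J // n • t = 0})
      = (Nat.card {t : J // n • t = 0}).factorial := by
    rw [Nat.card_eq_fintype_card, Fintype.card_perm, Nat.card_eq_fintype_card]
  rw [← hker, Subgroup.index_ker]
  refine ⟨?_, ?_⟩
  · rw [← hcard]
    exact Nat.card_le_card_of_injective (fun x : ρ.range => (x : Equiv.Perm _))
      Subtype.val_injective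
  · exact Nat.card_pos.ne'

end abstract_stabiliser

/-- The field cut out by the fibre `y + J[n]`, with the properties needed for Hermite–Minkowski. -/
theorem exists_field_of_fibre (N n : ℕ)
    (h1 : Stmt_torsion_finite N n) (h3 : Stmt_unram N n) (h4 : Stmt_open_stab N)
    (y : JZero N) (hy : ∀ τ : GQ, τ • (n • y) = n • y) :
    ∃ F : IntermediateField ℚ (AlgebraicClosure ℚ), FiniteDimensional ℚ F ∧
      Module.finrank ℚ F ≤ (Nat.card {t : JZero N // n • t = 0}).factorial ∧
      (∀ ℓ : ℕ, ℓ.Prime → ¬ ℓ ∣ n * N → ∀ A : ValuationSubring (AlgebraicClosure ℚ),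
        A.LiesOverPrime ℓ → A.inertiaSubgroupIn ℚ ≤ F.fixingSubgroup) ∧
      ∀ σ ∈ F.fixingSubgroup, σ • y = y := by
  classical
  set K : Subgroup GQ := fibreStab (G := GQ) n y with hK
  -- `K` contains the fixing subgroup of a number field
  obtain ⟨F', hF'fd, hF'⟩ : ∃ F' : IntermediateField ℚ (AlgebraicClosure ℚ),
      FiniteDimensional ℚ F' ∧ F'.fixingSubgroup ≤ K := by
    choose Fy hFy1 hFy2 using h4
    haveI : Finite {t : JZero N // n • t = 0} := h1
    haveI : ∀ t : {t : JZero N // n • t = 0}, FiniteDimensional ℚ (Fy (y + t.1)) :=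
      fun t => hFy1 _
    refine ⟨⨆ t : {t : JZero N // n • t = 0}, Fy (y + t.1),
      IntermediateField.finiteDimensional_iSup_of_finite, ?_⟩
    intro σ hσ t ht
    exact hFy2 (y + t) σ
      (IntermediateField.fixingSubgroup_antitone
        (le_iSup (fun t : {t : JZero N // n • t = 0} => Fy (y + t.1)) ⟨t, ht⟩) hσ)
  have hopen : IsOpen (K : Set GQ) :=
    Subgroup.isOpen_mono hF' (IntermediateField.fixingSubgroup_isOpen F')
  have hclosed : IsClosed (K : Set GQ) := Subgroup.isClosed_of_isOpen K hopen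
  let Kc : ClosedSubgroup GQ := ⟨K, hclosed⟩
  have hfix : (IntermediateField.fixedField K).fixingSubgroup = K :=
    InfiniteGalois.fixingSubgroup_fixedField Kc
  refine ⟨IntermediateField.fixedField K, ?_, ?_, ?_, ?_⟩
  · have hle : IntermediateField.fixedField K ≤ F' := by
      have := IntermediateField.fixedField_le (F := ℚ) (E := AlgebraicClosure ℚ) hF'
      rwa [InfiniteGalois.fixedField_fixingSubgroup] at this
    exact FiniteDimensional.of_injective (IntermediateField.inclusion hle).toLinearMap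
      (IntermediateField.inclusion_injective hle)
  · rw [IntermediateField.finrank_eq_fixingSubgroup_index, hfix]
    exact (index_fibreStab_le n y hy h1).1
  · intro ℓ hℓ hdvd A hA σ hσ
    rw [hfix]
    intro t ht
    refine h3 ℓ hℓ hdvd A hA σ hσ (y + t) ?_
    intro τ
    have e : n • (y + t) = n • y := by rw [nsmul_add, ht, add_zero]
    rw [e]
    exact hy τ
  · intro σ hσ
    rw [hfix] at hσ
    simpa using hσ 0 (smul_zero n)

/-- One open subgroup fixing every `n`-th root of every rational point. -/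
theorem exists_subgroup (N n : ℕ) (hnN : n * N ≠ 0)
    (h1 : Stmt_torsion_finite N n) (h3 : Stmt_unram N n) (h4 : Stmt_open_stab N) (h5 : Stmt_HM) :
    ∃ K : Subgroup GQ, K.FiniteIndex ∧
      ∀ y : JZero N, (∀ τ : GQ, τ • (n • y) = n • y) → ∀ σ ∈ K, σ • y = y := by
  classical
  set d := (Nat.card {t : JZero N // n • t = 0}).factorial with hd
  have hfin := h5 (n * N) d hnN
  set 𝔉 := {F : IntermediateField ℚ (AlgebraicClosure ℚ) | FiniteDimensional ℚ F ∧
      Module.finrank ℚ F ≤ d ∧
      ∀ ℓ : ℕ, ℓ.Prime → ¬ ℓ ∣ n * N → ∀ A : ValuationSubring (AlgebraicClosure ℚ),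
        A.LiesOverPrime ℓ → A.inertiaSubgroupIn ℚ ≤ F.fixingSubgroup} with h𝔉
  haveI : Finite 𝔉 := hfin
  haveI : ∀ F : 𝔉, FiniteDimensional ℚ (F : IntermediateField ℚ (AlgebraicClosure ℚ)) :=
    fun F => F.2.1
  set M : IntermediateField ℚ (AlgebraicClosure ℚ) :=
    ⨆ F : 𝔉, (F : IntermediateField ℚ (AlgebraicClosure ℚ)) with hM
  haveI hMfd : FiniteDimensional ℚ M := IntermediateField.finiteDimensional_iSup_of_finite
  refine ⟨M.fixingSubgroup, ?_, ?_⟩
  · rw [Subgroup.finiteIndex_iff, ← IntermediateField.finrank_eq_fixingSubgroup_index]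
    exact Module.finrank_pos.ne'
  · intro y hy σ hσ
    obtain ⟨F, hFfd, hFd, hFur, hFy⟩ := exists_field_of_fibre N n h1 h3 h4 y hy
    have hFmem : F ∈ 𝔉 := ⟨hFfd, hFd, hFur⟩
    have hle : F ≤ M := le_iSup (fun F : 𝔉 => (F : IntermediateField ℚ (AlgebraicClosure ℚ)))
      ⟨F, hFmem⟩
    exact hFy σ (IntermediateField.fixingSubgroup_antitone hle hσ)

/-- Weak Mordell–Weil for `J₀(N)` from the five inputs. -/
theorem weakMW_of_inputs (N n : ℕ) (hnN : n * N ≠ 0)
    (h1 : Stmt_torsion_finite N n) (h2 : Stmt_divisible N n) (h3 : Stmt_unram N n)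
    (h4 : Stmt_open_stab N) (h5 : Stmt_HM) : Stmt_weakMW N n := by
  obtain ⟨K, hK, hfix⟩ := exists_subgroup N n hnN h1 h3 h4 h5
  exact abstract_weakMW (G := GQ) (J := JZero N) n h1 h2 K hK hfix

end Fermat.Agent.S17
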