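import Fermat.Prelude.Def_ModularCurve_ArithmeticGalois
import Mathlib.Algebra.Ring.Action.Submonoid
import Mathlib.GroupTheory.Descent

/-!
# S17 (Mordell–Weil for `J₀(N)`): wiring

`Fermat.Agent.S17.result_of_inputs` proves the frozen statement from two explicit inputs:

* `Stmt_weakMW N n`   : `J₀(N)(ℚ) / n J₀(N)(ℚ)` is finite (weak Mordell–Weil);
* `Stmt_height N n`   : a height function on `J₀(N)(ℚ)` with the Northcott property and the two
  descent inequalities (with arbitrary constants `0 ≤ a < b`, so crude bounds are allowed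
  provided `n` is large).

Both are stated on the group of Galois-fixed points of `JZero N`.
-/

set_option autoImplicit false

open ModularCurve AlgebraicCurve

namespace Fermat.Agent.S17

/-- The absolute Galois group of `ℚ`. -/
abbrev GQ : Type := AlgebraicClosure ℚ ≃ₐ[ℚ] AlgebraicClosure ℚ

/-- `J₀(N)(ℚ)`: the Galois-fixed points of `JZero N`. -/
abbrev JQ (N : ℕ) : Type := ↥(FixedPoints.addSubgroup GQ (JZero N))

/-- Weak Mordell–Weil for the integer `n`. -/
def Stmt_weakMW (N n : ℕ) : Prop :=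
  (nsmulAddMonoidHom (α := JQ N) n).range.FiniteIndex

/-- Height package for the integer `n`. -/
def Stmt_height (N n : ℕ) : Prop :=
  ∃ (h : JQ N → ℝ) (a b c₀ : ℝ) (c : JQ N → ℝ), 0 ≤ a ∧ a < b ∧
    (∀ g x, h x ≤ a * h (g + x) + c g) ∧ (∀ x, b * h x - c₀ ≤ h (n • x)) ∧ Northcott h

/-- Descent: weak Mordell–Weil + heights ⇒ finite generation. -/
theorem fg_of_inputs (N n : ℕ) (h1 : Stmt_weakMW N n) (h2 : Stmt_height N n) :
    AddGroup.FG (JQ N) := by
  obtain ⟨h, a, b, c₀, c, ha, hab, H2, H3, hN⟩ := h2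
  haveI := hN
  exact AddCommGroup.fg_of_descent ha hab h1 H2 H3

/-- The frozen statement S17 from the two inputs (for any one `n`). -/
theorem result_of_inputs (N : ℕ) [NeZero N] (_hN : N.Prime) (_hN5 : 5 ≤ N) (n : ℕ)
    (h1 : Stmt_weakMW N n) (h2 : Stmt_height N n) :
    AddGroup.FG ↥(FixedPoints.addSubgroup ((AlgebraicClosure ℚ) ≃ₐ[ℚ] (AlgebraicClosure ℚ))
      (JZero N)) :=
  fg_of_inputs N n h1 h2

end Fermat.Agent.S17
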