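import Fermat.Agent.S17.H8_WeakMWFinal
import Fermat.Agent.S17.Height.H71_FinAsm
import Fermat.Agent.S17.Height.H16_HeightFinal
import Fermat.Agent.S17.Height.H41_GeoW
import Fermat.Agent.S17.Height.H8_Move
import Fermat.Agent.S17.Height.H77_GInc

/-!
# S17 (helper71): final wiring

* `finPending N`: the remaining fields of the matrix system (helper41: `W_rat`, `W_dim`, `W_zero`,
  `vec₀_inj`, `exists_Rv`; helper77: `inc_incR`, `W_inc`, `vec₀_lev`; helper35 + helper8: `move`);
* `stmt_height N`: the height part `Stmt_height N 2`;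
* `result_final`: the frozen statement S17.
-/

set_option autoImplicit false

noncomputable section

open ModularCurve AlgebraicCurve Matrix

namespace Fermat.Agent.S17.Final71

open Fermat.Agent.S17.H16 Fermat.Agent.S17.H71F Fermat.Agent.S17.H35 Fermat.Agent.S17.H71

/-- The remaining fields of the matrix system. -/
theorem finPending (N : ℕ) [NeZero N] : FinPending N where
  move := Fermat.Agent.S17.H8.geo_move_final N (a0N N) (by
    have := cRie_le_c0N N
    unfold a0N
    push_cast
    omega)
  W_rat := Fermat.Agent.S17.H41g.Wlev_rat N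
  W_dim := fun m D hD _ => Fermat.Agent.S17.H41g.Wlev_dim N (c0N N) (by
    have := cRie_le_c0N N
    omega) m D hD
  W_zero := Fermat.Agent.S17.H41g.Wlev_zero N
  inc_incR := Fermat.Agent.S17.H77.geo_inc_incR N
  W_inc := fun m D _ y => Fermat.Agent.S17.H77.geo_W_inc m D y
  vec₀_inj := Fermat.Agent.S17.H41g.vec0_inj (m0N N)
  vec₀_lev := Fermat.Agent.S17.H77.geo_vec0_lev (m0N N)
  exists_Rv := fun D x _ hx hxW => Fermat.Agent.S17.H41g.exists_Rv_of_mem_Wlev (m0N N) D x hx hxW

/-- The height part of S17. -/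
theorem stmt_height (N : ℕ) [NeZero N] : Fermat.Agent.S17.Stmt_height N 2 :=
  stmt_height_of_matSys_final N (finMatSys (finPending N))

/-- The frozen statement S17. -/
theorem result_final (N : ℕ) [NeZero N] (hN : N.Prime) (hN5 : 5 ≤ N) :
    AddGroup.FG ↥(FixedPoints.addSubgroup ((AlgebraicClosure ℚ) ≃ₐ[ℚ] (AlgebraicClosure ℚ))
      (JZero N)) :=
  Fermat.Agent.S17.result_of_inputs N hN hN5 2
    (Fermat.Agent.S17.H8.stmt_weakMW N 2 two_ne_zero) (stmt_height N)

end Fermat.Agent.S17.Final71
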