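/-
S17, package WMW-abs (helper16): the abstract weak Mordell–Weil lemma.

A group `G` acts on an additive commutative group `J`; `Γ = J^G`.  If
 (a) `J[n]` is finite,
 (b) every `x ∈ Γ` is `n • y` for some `y : J`,
 (c) a finite-index subgroup `H ≤ G` fixes every `y` with `n • y ∈ Γ`,
then `n • Γ` has finite index in `Γ`.
-/
import Mathlib.GroupTheory.Index
import Mathlib.GroupTheory.Coset.Basic
import Mathlib.Algebra.Ring.Action.Submonoid
import Mathlib.Algebra.Group.Subgroup.Finite
import Mathlib.Data.Fintype.Pi
import Mathlib.Tactic.Abel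

set_option autoImplicit false

namespace Fermat.Agent.S17.H16

variable {G J : Type*} [Group G] [AddCommGroup J] [DistribMulAction G J]

/-- The Kummer class of `y` evaluated at `σ`, as an element of `J[n]`. -/
theorem kummer_mem_torsion (n : ℕ) (y : J) (hy : n • y ∈ FixedPoints.addSubgroup G J) (σ : G) :
    n • (σ • y - y) = 0 := by
  have h1 : σ • (n • y) = n • y := hy σ
  rw [smul_sub, ← h1, smul_comm σ n y, sub_self]

/-- Abstract weak Mordell–Weil. -/
theorem finiteIndex_range_nsmul_fixedPoints (n : ℕ)
    (hfin : Finite {t : J // n • t = 0})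
    (hdiv : ∀ x ∈ FixedPoints.addSubgroup G J, ∃ y : J, n • y = x)
    (H : Subgroup G) [hHfi : H.FiniteIndex]
    (hH : ∀ y : J, n • y ∈ FixedPoints.addSubgroup G J → ∀ σ ∈ H, σ • y = y) :
    (nsmulAddMonoidHom (α := ↥(FixedPoints.addSubgroup G J)) n).range.FiniteIndex := by
  classical
  set Γ : AddSubgroup J := FixedPoints.addSubgroup G J with hΓ
  -- choose n-th "roots"
  choose! y hy using hdiv
  have hyΓ : ∀ x : Γ, n • y x ∈ Γ := fun x => by rw [hy x x.2]; exact x.2
  -- the finite target
  have : Finite (G ⧸ H) := Subgroup.finite_quotient_of_finiteIndex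
  let T := {t : J // n • t = 0}
  let f : Γ → (G ⧸ H → T) := fun x c =>
    ⟨(Quotient.out c : G) • y x - y x, kummer_mem_torsion n (y x) (hyΓ x) _⟩
  -- key property
  have key : ∀ x x' : Γ, f x = f x' →
      x - x' ∈ (nsmulAddMonoidHom (α := ↥Γ) n).range := by
    intro x x' hxx
    set z : J := y x - y x' with hz
    have hzfix : ∀ σ : G, σ • z = z := by
      intro σ
      -- σ = r * h
      set r : G := Quotient.out (σ : G ⧸ H) with hr
      have hrσ : r⁻¹ * σ ∈ H := by
        have : ((r : G) : G ⧸ H) = (σ : G ⧸ H) := Quotient.out_eq _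
        exact QuotientGroup.eq.mp this
      set h : G := r⁻¹ * σ with hh
      have hσ : σ = r * h := by rw [hh, mul_inv_cancel_left]
      have hhz : h • z = z := by
        rw [hz, smul_sub, hH (y x) (hyΓ x) h hrσ, hH (y x') (hyΓ x') h hrσ]
      have hrz : r • z = z := by
        have := congrArg (fun g => (g (σ : G ⧸ H)).1) hxx
        simp only [f] at this
        -- r • y x - y x = r • y x' - y x'
        rw [hz, smul_sub]
        have h2 : r • y x - y x = r • y x' - y x' := this
        have h3 : r • y x - r • y x' = y x - y x' := by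
          have := h2
          rw [sub_eq_sub_iff_add_eq_add] at this ⊢
          rw [add_comm (y x) _, ← this, add_comm]
        exact h3
      rw [hσ, mul_smul, hhz, hrz]
    have hzΓ : z ∈ Γ := fun σ => hzfix σ
    refine ⟨⟨z, hzΓ⟩, ?_⟩
    apply Subtype.ext
    simp only [nsmulAddMonoidHom_apply, AddSubgroup.coe_nsmul, AddSubgroup.coe_sub]
    rw [hz, smul_sub, hy x x.2, hy x' x'.2]
  -- finiteness of the quotient
  set R := (nsmulAddMonoidHom (α := ↥Γ) n).range with hR
  have hfinq : Finite (↥Γ ⧸ R) := by
    have hT : Finite T := hfin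
    have hPi : Finite (G ⧸ H → T) := Pi.finite
    have hRg : Finite (Set.range f) := Subtype.finite
    let g : Set.range f → ↥Γ ⧸ R := fun t => QuotientAddGroup.mk (Classical.choose t.2)
    refine Finite.of_surjective g ?_
    intro q
    obtain ⟨x, rfl⟩ := QuotientAddGroup.mk_surjective q
    refine ⟨⟨f x, x, rfl⟩, ?_⟩
    have hch : f (Classical.choose (⟨f x, x, rfl⟩ : Set.range f).2) = f x :=
      Classical.choose_spec (⟨f x, x, rfl⟩ : Set.range f).2
    simp only [g]
    rw [QuotientAddGroup.eq]
    have := key x _ hch.symm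
    have h2 : -Classical.choose (⟨f x, x, rfl⟩ : Set.range f).2 + x ∈ R := by
      have e : -Classical.choose (⟨f x, x, rfl⟩ : Set.range f).2 + x
          = x - Classical.choose (⟨f x, x, rfl⟩ : Set.range f).2 := by abel
      rw [e]; exact this
    exact h2
  exact AddSubgroup.finiteIndex_of_finite_quotient

end Fermat.Agent.S17.H16
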