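import Mathlib.LinearAlgebra.Matrix.Adjugate
import Mathlib.LinearAlgebra.Matrix.Determinant.Basic
import Mathlib.NumberTheory.Padics.PadicVal.Basic

/-!
# S17-W5 (Hermite–Minkowski), step 1: the adjugate lemma (helper8)

`G` an integer square matrix of size `n`, `ℓ` prime, `det G ≠ 0`. If every integer vector `c`
with `G c ≡ 0 mod ℓ^(M+1)` is `≡ 0 mod ℓ`, then `ℓ^(n M + 1) ∤ det G`.
-/

set_option autoImplicit false

namespace Fermat.Agent.S17.H8

open Matrix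

variable {ι : Type*} [Fintype ι] [DecidableEq ι]

/-- Induction step: the adjugate is divisible by `ℓ^t` as long as `ℓ^(M+t) ∣ det G`. -/
theorem adjugate_eq_pow_smul (G : Matrix ι ι ℤ) (ℓ : ℕ) (hℓ : ℓ.Prime) (M : ℕ)
    (h : ∀ c : ι → ℤ, (∀ i, (ℓ : ℤ) ^ (M + 1) ∣ (G *ᵥ c) i) → ∀ i, (ℓ : ℤ) ∣ c i)
    (t : ℕ) (ht : (ℓ : ℤ) ^ (M + t) ∣ G.det) :
    ∃ H : Matrix ι ι ℤ, G.adjugate = (ℓ : ℤ) ^ t • H := by
  have hℓ0 : (ℓ : ℤ) ≠ 0 := by exact_mod_cast hℓ.ne_zero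
  induction t with
  | zero => exact ⟨G.adjugate, by simp⟩
  | succ t ih =>
    have ht' : (ℓ : ℤ) ^ (M + t) ∣ G.det := by
      refine dvd_trans (pow_dvd_pow _ ?_) ht
      omega
    obtain ⟨H, hH⟩ := ih ht'
    obtain ⟨d', hd'⟩ := ht
    have hGH : G * H = ((ℓ : ℤ) ^ (M + 1) * d') • (1 : Matrix ι ι ℤ) := by
      have h1 : G * G.adjugate = G.det • (1 : Matrix ι ι ℤ) := Matrix.mul_adjugate G
      rw [hH, Matrix.mul_smul, hd'] at h1
      have h2 : (ℓ : ℤ) ^ t • (G * H) =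
          (ℓ : ℤ) ^ t • (((ℓ : ℤ) ^ (M + 1) * d') • (1 : Matrix ι ι ℤ)) := by
        rw [h1, smul_smul]
        congr 1
        ring
      ext i j
      have h3 := congrFun (congrFun h2 i) j
      simp only [Matrix.smul_apply, smul_eq_mul] at h3
      have h4 := mul_left_cancel₀ (pow_ne_zero t hℓ0) h3
      simpa [Matrix.smul_apply] using h4
    have hdiv : ∀ i j, (ℓ : ℤ) ∣ H i j := by
      intro i j
      refine h (fun k => H k j) (fun k => ?_) i
      have : (G *ᵥ fun k => H k j) k = (G * H) k j := by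
        simp [Matrix.mulVec, Matrix.mul_apply, dotProduct]
      rw [this, hGH]
      simp only [Matrix.smul_apply, smul_eq_mul]
      exact dvd_mul_of_dvd_left (dvd_mul_right _ _) _
    refine ⟨Matrix.of fun i j => H i j / (ℓ : ℤ), ?_⟩
    rw [hH]
    ext i j
    obtain ⟨q, hq⟩ := hdiv i j
    have hq' : H i j / (ℓ : ℤ) = q := by rw [hq, Int.mul_ediv_cancel_left _ hℓ0]
    simp only [Matrix.smul_apply, smul_eq_mul, Matrix.of_apply]
    rw [hq', hq]
    ring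

/-- **Adjugate lemma.** -/
theorem not_pow_dvd_det (G : Matrix ι ι ℤ) (ℓ : ℕ) (hℓ : ℓ.Prime) (M : ℕ) (hG : G.det ≠ 0)
    (h : ∀ c : ι → ℤ, (∀ i, (ℓ : ℤ) ^ (M + 1) ∣ (G *ᵥ c) i) → ∀ i, (ℓ : ℤ) ∣ c i) :
    ¬ (ℓ : ℤ) ^ (Fintype.card ι * M + 1) ∣ G.det := by
  have : Fact ℓ.Prime := ⟨hℓ⟩
  intro hdvd
  set n := Fintype.card ι with hn
  set v := padicValInt ℓ G.det with hv
  have hv1 : n * M + 1 ≤ v := ((padicValInt_dvd_iff _ _).mp hdvd).resolve_left hG
  have hn0 : n ≠ 0 := by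
    intro h0
    have : G.det = 1 := by
      have : IsEmpty ι := Fintype.card_eq_zero_iff.mp (hn ▸ h0)
      exact Matrix.det_isEmpty
    rw [hv, this] at hv1
    simp at hv1
  have hn1 : 1 ≤ n := Nat.one_le_iff_ne_zero.mpr hn0
  have hvM : M ≤ v := by
    have : M ≤ n * M := Nat.le_mul_of_pos_left M hn1
    omega
  obtain ⟨H, hH⟩ := adjugate_eq_pow_smul G ℓ hℓ M h (v - M) (by
    rw [Nat.add_sub_cancel' hvM]
    exact padicValInt_dvd G.det)
  have h1 : G.adjugate.det = G.det ^ (n - 1) := Matrix.det_adjugate G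
  rw [hH, Matrix.det_smul] at h1
  have h2 : ((ℓ : ℤ) ^ (v - M)) ^ n ∣ G.det ^ (n - 1) := ⟨H.det, by rw [← h1]⟩
  rw [← pow_mul] at h2
  have h3 : (v - M) * n ≤ padicValInt ℓ (G.det ^ (n - 1)) :=
    ((padicValInt_dvd_iff _ _).mp h2).resolve_left (pow_ne_zero _ hG)
  have h3' : padicValInt ℓ (G.det ^ (n - 1)) = (n - 1) * v := by
    rw [hv]
    unfold padicValInt
    rw [Int.natAbs_pow, padicValNat.pow]
  rw [h3'] at h3
  have h4 : (v - M) * n ≤ (n - 1) * v := h3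
  -- (v - M) n ≤ (n - 1) v  gives  v ≤ n M
  have h5 : v * n ≤ (n - 1) * v + M * n := by
    have : v * n = (v - M) * n + M * n := by
      rw [← Nat.add_mul, Nat.sub_add_cancel hvM]
    omega
  have h6 : (n - 1) * v + v = v * n := by
    have : n = (n - 1) + 1 := (Nat.sub_add_cancel hn1).symm
    calc (n - 1) * v + v = ((n - 1) + 1) * v := by ring
      _ = n * v := by rw [← this]
      _ = v * n := Nat.mul_comm _ _
  have h7 : v ≤ M * n := by omega
  have h8 : M * n = n * M := Nat.mul_comm _ _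
  omega

end Fermat.Agent.S17.H8
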