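import Mathlib.RingTheory.MvPolynomial.Symmetric.NewtonIdentities
import Mathlib.RingTheory.Polynomial.Vieta
import Mathlib.RingTheory.IntegralClosure.IsIntegralClosure.Basic
import Mathlib.Algebra.Polynomial.Lifts
import Mathlib.Data.Nat.Factorization.Basic

/-!
# S17-W5 (Hermite–Minkowski), step 2: Newton identities and integrality (helper8)

`α : ι → E` integral elements of a field of characteristic zero, `n = card ι`, `ℓ` prime.
If every power sum `∑ i, α i ^ k`, `1 ≤ k ≤ n`, is `ℓ ^ (2 n)` times an integral element,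
then every `α i / ℓ` is integral.
-/

set_option autoImplicit false

namespace Fermat.Agent.S17.H8

open Finset Polynomial

variable {E : Type*} [Field E] [CharZero E] {ι : Type*} [Fintype ι] [DecidableEq ι]

/-- The elementary symmetric functions of a family. -/
noncomputable def esymF (α : ι → E) (k : ℕ) : E :=
  ∑ t ∈ powersetCard k (univ : Finset ι), ∏ i ∈ t, α i

omit [CharZero E] [DecidableEq ι] in
lemma esymF_eq_aeval (α : ι → E) (k : ℕ) :
    esymF α k = MvPolynomial.aeval α (MvPolynomial.esymm ι ℤ k) := by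
  simp [esymF, MvPolynomial.esymm, map_sum, map_prod]

omit [CharZero E] [DecidableEq ι] in
lemma esymF_eq_multiset (α : ι → E) (k : ℕ) :
    esymF α k = ((univ : Finset ι).val.map α).esymm k := by
  rw [esymF, Finset.esymm_map_val]

omit [CharZero E] [DecidableEq ι] in
lemma isIntegral_esymF {α : ι → E} (hα : ∀ i, IsIntegral ℤ (α i)) (k : ℕ) :
    IsIntegral ℤ (esymF α k) :=
  IsIntegral.sum _ fun _ _ => IsIntegral.prod _ fun i _ => hα i

omit [CharZero E] [DecidableEq ι] in
lemma esymF_zero (α : ι → E) : esymF α 0 = 1 := by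
  simp [esymF]

omit [CharZero E] [DecidableEq ι] in
/-- Newton's identity, evaluated. -/
lemma newton (α : ι → E) (k : ℕ) :
    (k : E) * esymF α k = (-1) ^ (k + 1) *
      ∑ a ∈ antidiagonal k with a.1 < k, (-1) ^ a.1 * esymF α a.1 * ∑ i, α i ^ a.2 := by
  have h := congrArg (MvPolynomial.aeval α) (MvPolynomial.mul_esymm_eq_sum ι ℤ k)
  simp only [map_mul, map_natCast, map_pow, map_neg, map_one, map_sum, MvPolynomial.psum,
    MvPolynomial.aeval_X, ← esymF_eq_aeval] at h
  exact h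

omit [DecidableEq ι] in
/-- Divide `k` out of `k * e = ℓ ^ (2 n) * w`. -/
lemma exists_eq_pow_mul {ℓ : ℕ} (hℓ : ℓ.Prime) {n k : ℕ} (hk1 : 1 ≤ k) (hkn : k ≤ n) {e w : E}
    (he : IsIntegral ℤ e) (hw : IsIntegral ℤ w) (h : (k : E) * e = (ℓ : E) ^ (2 * n) * w) :
    ∃ z : E, IsIntegral ℤ z ∧ e = (ℓ : E) ^ k * z := by
  have hℓE : (ℓ : E) ≠ 0 := by exact_mod_cast hℓ.ne_zero
  obtain ⟨v, m, hm, hkm⟩ := Nat.exists_eq_pow_mul_and_not_dvd (Nat.one_le_iff_ne_zero.mp hk1) ℓ
    hℓ.ne_one
  have hvk : v < k := by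
    have h1 : ℓ ^ v ≤ k := by
      rw [hkm]
      exact Nat.le_mul_of_pos_right _ (Nat.pos_of_ne_zero (by
        rintro rfl
        exact hm (dvd_zero _)))
    exact lt_of_lt_of_le (Nat.lt_pow_self hℓ.one_lt) h1
  have hexp : v + (2 * n - v) = 2 * n := by omega
  have h2 : (m : E) * e = (ℓ : E) ^ (2 * n - v) * w := by
    have h3 : (ℓ : E) ^ v * ((m : E) * e) = (ℓ : E) ^ v * ((ℓ : E) ^ (2 * n - v) * w) := by
      rw [← mul_assoc, ← mul_assoc, ← pow_add, hexp, ← h, hkm]
      push_cast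
      ring
    exact mul_left_cancel₀ (pow_ne_zero v hℓE) h3
  have hcop : IsCoprime (m : ℤ) ((ℓ : ℤ) ^ (2 * n - v)) := by
    have : Nat.Coprime m (ℓ ^ (2 * n - v)) :=
      Nat.Coprime.pow_right _ ((Nat.Prime.coprime_iff_not_dvd hℓ).mpr hm).symm
    exact_mod_cast Nat.isCoprime_iff_coprime.mpr this
  obtain ⟨a, b, hab⟩ := hcop
  have hab' : (a : E) * (m : E) + (b : E) * (ℓ : E) ^ (2 * n - v) = 1 := by
    exact_mod_cast congrArg (Int.cast : ℤ → E) hab
  have hsplit : 2 * n - v = k + (2 * n - v - k) := by omega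
  refine ⟨(ℓ : E) ^ (2 * n - v - k) * ((a : E) * w + (b : E) * e), ?_, ?_⟩
  · refine IsIntegral.mul (IsIntegral.pow ?_ _) (IsIntegral.add (IsIntegral.mul ?_ hw)
      (IsIntegral.mul ?_ he))
    · exact isIntegral_algebraMap (R := ℤ) (x := (ℓ : ℤ)) |>.map (Algebra.ofId ℤ E) |> fun h => by
        simpa using h
    · simpa using (isIntegral_algebraMap (R := ℤ) (A := E) (x := a))
    · simpa using (isIntegral_algebraMap (R := ℤ) (A := E) (x := b))
  · calc e = ((a : E) * (m : E) + (b : E) * (ℓ : E) ^ (2 * n - v)) * e := by rw [hab', one_mul]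
      _ = (a : E) * ((m : E) * e) + (b : E) * (ℓ : E) ^ (2 * n - v) * e := by ring
      _ = (ℓ : E) ^ (2 * n - v) * ((a : E) * w + (b : E) * e) := by rw [h2]; ring
      _ = (ℓ : E) ^ k * ((ℓ : E) ^ (2 * n - v - k) * ((a : E) * w + (b : E) * e)) := by
          rw [← mul_assoc, ← pow_add, ← hsplit]

omit [CharZero E] [DecidableEq ι] in
lemma isIntegral_natCast' (ℓ : ℕ) : IsIntegral ℤ (ℓ : E) := by
  simpa using (isIntegral_algebraMap (R := ℤ) (A := E) (x := (ℓ : ℤ)))

omit [DecidableEq ι] in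
/-- The elementary symmetric functions are divisible by `ℓ ^ k`. -/
lemma esymF_eq_pow_mul {ℓ : ℕ} (hℓ : ℓ.Prime) (α : ι → E) (hα : ∀ i, IsIntegral ℤ (α i))
    (hp : ∀ k, 1 ≤ k → k ≤ Fintype.card ι →
      ∃ s : E, IsIntegral ℤ s ∧ ∑ i, α i ^ k = (ℓ : E) ^ (2 * Fintype.card ι) * s)
    (k : ℕ) (hk : k ≤ Fintype.card ι) :
    ∃ z : E, IsIntegral ℤ z ∧ esymF α k = (ℓ : E) ^ k * z := by
  classical
  rcases Nat.eq_zero_or_pos k with rfl | hk1
  · exact ⟨1, isIntegral_one, by simp [esymF_zero]⟩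
  set n := Fintype.card ι with hn
  let s : ℕ → E := fun b => if h : 1 ≤ b ∧ b ≤ n then (hp b h.1 h.2).choose else 0
  have hs : ∀ b, IsIntegral ℤ (s b) := by
    intro b
    by_cases h : 1 ≤ b ∧ b ≤ n
    · simp only [s, dif_pos h]; exact (hp b h.1 h.2).choose_spec.1
    · simp only [s, dif_neg h]; exact isIntegral_zero
  have hs' : ∀ b, 1 ≤ b → b ≤ n → ∑ i, α i ^ b = (ℓ : E) ^ (2 * n) * s b := by
    intro b h1 h2
    simp only [s, dif_pos (And.intro h1 h2)]
    exact (hp b h1 h2).choose_spec.2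
  have hN := newton α k
  have hw : (k : E) * esymF α k = (ℓ : E) ^ (2 * n) *
      ((-1) ^ (k + 1) * ∑ a ∈ antidiagonal k with a.1 < k, (-1) ^ a.1 * esymF α a.1 * s a.2) := by
    rw [hN, Finset.mul_sum, Finset.mul_sum, Finset.mul_sum]
    refine Finset.sum_congr rfl fun a ha => ?_
    rw [Finset.mem_filter, Finset.mem_antidiagonal] at ha
    rw [hs' a.2 (by omega) (by omega)]
    ring
  refine exists_eq_pow_mul hℓ hk1 hk (isIntegral_esymF hα k) ?_ hw
  refine IsIntegral.mul (IsIntegral.pow (IsIntegral.neg isIntegral_one) _) (IsIntegral.sum _ ?_)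
  intro a _
  exact IsIntegral.mul (IsIntegral.mul (IsIntegral.pow (IsIntegral.neg isIntegral_one) _)
    (isIntegral_esymF hα _)) (hs _)

omit [CharZero E] [DecidableEq ι] in
lemma esymF_div (α : ι → E) (c : E) (k : ℕ) :
    esymF (fun i => α i / c) k = esymF α k / c ^ k := by
  unfold esymF
  rw [div_eq_mul_inv, Finset.sum_mul]
  refine Finset.sum_congr rfl fun t ht => ?_
  rw [Finset.prod_div_distrib, Finset.prod_const, (Finset.mem_powersetCard.mp ht).2,
    div_eq_mul_inv]

omit [DecidableEq ι] in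
/-- **Newton integrality.** -/
theorem isIntegral_div_of_psum {ℓ : ℕ} (hℓ : ℓ.Prime) (α : ι → E)
    (hα : ∀ i, IsIntegral ℤ (α i))
    (hp : ∀ k, 1 ≤ k → k ≤ Fintype.card ι →
      ∃ s : E, IsIntegral ℤ s ∧ ∑ i, α i ^ k = (ℓ : E) ^ (2 * Fintype.card ι) * s) (i₀ : ι) :
    IsIntegral ℤ (α i₀ / (ℓ : E)) := by
  classical
  have hℓE : (ℓ : E) ≠ 0 := by exact_mod_cast hℓ.ne_zero
  set β : ι → E := fun i => α i / (ℓ : E) with hβ
  have hβe : ∀ k, IsIntegral ℤ (esymF β k) := by
    intro k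
    by_cases hk : k ≤ Fintype.card ι
    · obtain ⟨z, hz, hez⟩ := esymF_eq_pow_mul hℓ α hα hp k hk
      rw [hβ, esymF_div, hez, mul_div_cancel_left₀ _ (pow_ne_zero k hℓE)]
      exact hz
    · have : esymF β k = 0 := by
        unfold esymF
        rw [Finset.powersetCard_eq_empty.mpr (by simpa using hk), Finset.sum_empty]
      rw [this]
      exact isIntegral_zero
  set Q : E[X] := ((univ : Finset ι).val.map fun i => X - C (β i)).prod with hQ
  have hQmonic : Q.Monic := by
    rw [hQ]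
    refine Polynomial.monic_multiset_prod_of_monic _ _ fun i _ => monic_X_sub_C _
  have hQroot : Q.eval (β i₀) = 0 := by
    rw [hQ, Polynomial.eval_multiset_prod]
    refine Multiset.prod_eq_zero ?_
    rw [Multiset.mem_map]
    refine ⟨X - C (β i₀), ?_, by simp⟩
    rw [Multiset.mem_map]
    exact ⟨i₀, Finset.mem_univ_val _, rfl⟩
  have hQcoeff : ∀ j, IsIntegral ℤ (Q.coeff j) := by
    intro j
    have hcard : Multiset.card ((univ : Finset ι).val.map β) = Fintype.card ι := by simp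
    by_cases hj : j ≤ Fintype.card ι
    · have h1 : Q = (((univ : Finset ι).val.map β).map fun t => X - C t).prod := by
        rw [hQ, Multiset.map_map]; rfl
      rw [h1, Multiset.prod_X_sub_C_coeff _ (by rw [hcard]; exact hj), hcard,
        ← esymF_eq_multiset]
      exact IsIntegral.mul (IsIntegral.pow (IsIntegral.neg isIntegral_one) _) (hβe _)
    · have hdeg : Q.natDegree = Fintype.card ι := by
        rw [hQ, Polynomial.natDegree_multiset_prod_of_monic _ (by
          intro p hp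
          rw [Multiset.mem_map] at hp
          obtain ⟨i, -, rfl⟩ := hp
          exact monic_X_sub_C _)]
        simp
      rw [Polynomial.coeff_eq_zero_of_natDegree_lt (by rw [hdeg]; omega)]
      exact isIntegral_zero
  have hlifts : Q ∈ Polynomial.lifts (algebraMap (integralClosure ℤ E) E) := by
    rw [Polynomial.lifts_iff_coeff_lifts]
    intro j
    exact ⟨⟨Q.coeff j, hQcoeff j⟩, rfl⟩
  obtain ⟨q, hqQ, -, hqmonic⟩ := Polynomial.lifts_and_degree_eq_and_monic hlifts hQmonic
  have hint : IsIntegral (integralClosure ℤ E) (β i₀) := by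
    refine ⟨q, hqmonic, ?_⟩
    rw [← Polynomial.eval_map, hqQ, hQroot]
  exact isIntegral_trans _ hint

end Fermat.Agent.S17.H8
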