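import Fermat.Agent.S17.H8_HMAdj
import Fermat.Agent.S17.H8_HMNewton
import Mathlib.NumberTheory.NumberField.Discriminant.Defs
import Mathlib.NumberTheory.NumberField.Norm
import Mathlib.FieldTheory.PrimitiveElement
import Mathlib.FieldTheory.IsAlgClosed.AlgebraicClosure
import Mathlib.RingTheory.Trace.Basic

/-!
# S17-W5 (Hermite–Minkowski), step 3: the discriminant has bounded `ℓ`-adic valuation (helper8)

For a number field `K` of degree `n` and every prime `ℓ`: `ℓ ^ (n (2 n - 1) + 1) ∤ discr K`.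
-/

set_option autoImplicit false

namespace Fermat.Agent.S17.H8

open NumberField Module

variable (K : Type*) [Field K] [NumberField K]

/-- **Core.** If `ℓ^(2n)` divides `Tr (x y)` for all integral `y`, then `ℓ ∣ x`. -/
theorem dvd_of_trace_dvd {ℓ : ℕ} (hℓ : ℓ.Prime) (x : 𝓞 K)
    (h : ∀ y : 𝓞 K, (ℓ : ℤ) ^ (2 * finrank ℚ K) ∣ Algebra.trace ℤ (𝓞 K) (x * y)) :
    (ℓ : 𝓞 K) ∣ x := by
  classical
  let E := AlgebraicClosure ℚ
  have hcard : Fintype.card (K →ₐ[ℚ] E) = finrank ℚ K := AlgHom.card ℚ K E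
  let α : (K →ₐ[ℚ] E) → E := fun σ => σ (x : K)
  have hxint : IsIntegral ℤ (x : K) := x.2
  have hα : ∀ σ, IsIntegral ℤ (α σ) := fun σ => hxint.map σ
  have hp : ∀ k : ℕ, 1 ≤ k → k ≤ Fintype.card (K →ₐ[ℚ] E) →
      ∃ s : E, IsIntegral ℤ s ∧
        ∑ σ, α σ ^ k = (ℓ : E) ^ (2 * Fintype.card (K →ₐ[ℚ] E)) * s := by
    intro k hk1 _
    obtain ⟨m, hm⟩ := h (x ^ (k - 1))
    refine ⟨(m : E), isIntegral_intCast m, ?_⟩
    have hxk : x * x ^ (k - 1) = x ^ k := by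
      rw [← pow_succ', Nat.sub_add_cancel hk1]
    rw [hxk] at hm
    have h1 : (Algebra.trace ℤ (𝓞 K) (x ^ k) : ℚ) = Algebra.trace ℚ K ((x : K) ^ k) := by
      rw [Algebra.coe_trace_int]
      simp
    have h2 : algebraMap ℚ E (Algebra.trace ℚ K ((x : K) ^ k)) = ∑ σ : K →ₐ[ℚ] E, σ ((x : K) ^ k) :=
      trace_eq_sum_embeddings (K := ℚ) (L := K) E
    have h3 : ∑ σ, α σ ^ k = ∑ σ : K →ₐ[ℚ] E, σ ((x : K) ^ k) := by
      refine Finset.sum_congr rfl fun σ _ => ?_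
      simp [α]
    rw [h3, ← h2, ← h1, hm, hcard]
    push_cast
    simp
  -- pick an embedding
  have hne : Nonempty (K →ₐ[ℚ] E) := by
    rw [← Fintype.card_pos_iff, hcard]
    exact finrank_pos
  obtain ⟨σ₀⟩ := hne
  have hint : IsIntegral ℤ (α σ₀ / (ℓ : E)) := isIntegral_div_of_psum hℓ α hα hp σ₀
  have hσ : α σ₀ / (ℓ : E) = σ₀ ((x : K) / (ℓ : K)) := by
    simp [α, map_div₀]
  rw [hσ] at hint
  have hint' : IsIntegral ℤ ((x : K) / (ℓ : K)) :=
    (isIntegral_algHom_iff (σ₀.restrictScalars ℤ) σ₀.injective).mp hint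
  have hmem : (x : K) / (ℓ : K) ∈ integralClosure ℤ K := hint'
  let z : 𝓞 K := ⟨(x : K) / (ℓ : K), hmem⟩
  have hz : algebraMap (𝓞 K) K z = (x : K) / (ℓ : K) := rfl
  refine ⟨z, ?_⟩
  apply RingOfIntegers.ext
  have hℓ0 : (ℓ : K) ≠ 0 := by exact_mod_cast hℓ.ne_zero
  show algebraMap (𝓞 K) K x = algebraMap (𝓞 K) K ((ℓ : 𝓞 K) * z)
  rw [map_mul, map_natCast, hz]
  field_simp

/-- The discriminant of a number field of degree `n` is not divisible by `ℓ ^ (n (2n-1) + 1)`. -/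
theorem not_pow_dvd_discr {ℓ : ℕ} (hℓ : ℓ.Prime) :
    ¬ (ℓ : ℤ) ^ (finrank ℚ K * (2 * finrank ℚ K - 1) + 1) ∣ discr K := by
  classical
  set n := finrank ℚ K with hn
  have hn1 : 1 ≤ n := finrank_pos
  let b := RingOfIntegers.basis K
  have hcard : Fintype.card (Free.ChooseBasisIndex ℤ (𝓞 K)) = n := by
    rw [← finrank_eq_card_chooseBasisIndex, RingOfIntegers.rank]
  have hdet : (Algebra.traceMatrix ℤ b).det ≠ 0 := discr_ne_zero K
  have key := not_pow_dvd_det (Algebra.traceMatrix ℤ b) ℓ hℓ (2 * n - 1) hdet ?_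
  · rw [hcard] at key
    exact key
  · intro c hc i
    have h2n : 2 * n - 1 + 1 = 2 * n := by omega
    rw [h2n] at hc
    set z : 𝓞 K := b.equivFun.symm c with hz
    have hcz : c = b.equivFun z := by rw [hz, LinearEquiv.apply_symm_apply]
    rw [hcz, Algebra.traceMatrix_of_basis_mulVec] at hc
    have hall : ∀ y : 𝓞 K, (ℓ : ℤ) ^ (2 * n) ∣ Algebra.trace ℤ (𝓞 K) (z * y) := by
      intro y
      have hy : y = ∑ j, b.repr y j • b j := (b.sum_repr y).symm
      rw [hy, Finset.mul_sum, map_sum]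
      refine Finset.dvd_sum fun j _ => ?_
      rw [mul_smul_comm, map_smul, smul_eq_mul]
      exact dvd_mul_of_dvd_right (hc j) _
    obtain ⟨w, hw⟩ := dvd_of_trace_dvd K hℓ z hall
    rw [hcz, hw]
    refine ⟨b.equivFun w i, ?_⟩
    have : ((ℓ : 𝓞 K) * w) = (ℓ : ℤ) • w := by
      rw [zsmul_eq_mul]
      push_cast
      rfl
    rw [this, map_smul]
    simp

end Fermat.Agent.S17.H8
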