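import Fermat.Agent.RED.H42_RiemannFinal

/-!
# S17 part H, packages (A3), (A4): the base-point-free pencil trick (helper8)

Abstract function-field statements (no modular input).  `K` algebraically closed, `F / K` a
function field of one variable, `L = riemannRochSpace`, `(g, c)` the Riemann data.

* `exists_pencil` : a subspace `U ≤ L D` without base points relative to `D` contains `s₁, s₂`,
  both nonzero, such that at every place one of them has exact order `-D v`.
* `finrank_pencil_range` : `dim (s₁ L(E) + s₂ L(E)) = 2 l(E) - l(E - D)`.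
* `mul_L_eq` (A3) : `L(D + E) = s₁ L(E) + s₂ L(E)` if `deg D ≥ c + 1`, `deg E ≥ deg D + c`.
* `eq_L_of_small_product` (A4) : a subspace `U ≤ L D₀` of dimension `deg D₀ - a + 1 - g` whose
  product with `L E₀` has dimension `≤ deg E₀ + deg D₀ - a + 1 - g` is `L (D₀ - A)` for an
  effective divisor `A` of degree `a`.
-/

set_option autoImplicit false

noncomputable section

open AlgebraicCurve WithZero

namespace Fermat.Agent.S17.H8

variable {K F : Type*} [Field K] [Field F] [Algebra K F]

local notation "L" => riemannRochSpace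

/-- `U` has no base points relative to `D`: at every place some element has exact pole order. -/
def NoBase (U : Submodule K F) (D : Divisor K F) : Prop :=
  ∀ v : Place K F, ∃ s ∈ U, v.adicValuation s = exp (D v)

/-- `(s₁, s₂)` is a pencil for `D`: at every place one of them has exact pole order. -/
def IsPencil (s₁ s₂ : F) (D : Divisor K F) : Prop :=
  ∀ v : Place K F, v.adicValuation s₁ = exp (D v) ∨ v.adicValuation s₂ = exp (D v)

/-- The pencil map `(f₁, f₂) ↦ s₁ f₁ + s₂ f₂` on `L(E)²`. -/
def pencilMap (s₁ s₂ : F) (E : Divisor K F) : (L E × L E) →ₗ[K] F where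
  toFun p := s₁ * (p.1 : F) + s₂ * (p.2 : F)
  map_add' p q := by
    simp only [Prod.fst_add, Prod.snd_add, Submodule.coe_add]
    ring
  map_smul' a p := by
    simp only [Prod.smul_fst, Prod.smul_snd, Submodule.coe_smul, RingHom.id_apply,
      Algebra.smul_def]
    ring

theorem pencilMap_apply (s₁ s₂ : F) (E : Divisor K F) (p : L E × L E) :
    pencilMap s₁ s₂ E p = s₁ * (p.1 : F) + s₂ * (p.2 : F) := rfl

/-- The range of the pencil map lies in `L(D + E)`. -/
theorem pencilMap_range_le {s₁ s₂ : F} {D : Divisor K F} (hs₁ : s₁ ∈ L D) (hs₂ : s₂ ∈ L D)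
    (E : Divisor K F) : LinearMap.range (pencilMap s₁ s₂ E) ≤ L (D + E) := by
  rintro _ ⟨p, rfl⟩
  rw [pencilMap_apply]
  exact (L (D + E)).add_mem (Fermat.Agent.RED.H42.mul_mem_L_add hs₁ p.1.2)
    (Fermat.Agent.RED.H42.mul_mem_L_add hs₂ p.2.2)

/-- The kernel parametrisation `h ↦ (s₂ h, - s₁ h)`. -/
def kerMap {s₁ s₂ : F} {D : Divisor K F} (hs₁ : s₁ ∈ L D) (hs₂ : s₂ ∈ L D)
    (E : Divisor K F) : L (E - D) →ₗ[K] (L E × L E) where
  toFun h :=
    (⟨s₂ * (h : F), by
        have := Fermat.Agent.RED.H42.mul_mem_L_add hs₂ h.2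
        rwa [add_sub_cancel] at this⟩,
     ⟨-(s₁ * (h : F)), by
        have := Fermat.Agent.RED.H42.mul_mem_L_add hs₁ h.2
        rw [add_sub_cancel] at this
        exact (L E).neg_mem this⟩)
  map_add' h h' := by
    ext
    · simp only [Submodule.coe_add, Prod.mk_add_mk]
      ring
    · simp only [Submodule.coe_add, Prod.mk_add_mk]
      ring
  map_smul' a h := by
    ext
    · simp only [Submodule.coe_smul, RingHom.id_apply, Prod.smul_mk, Algebra.smul_def]
      ring
    · simp only [Submodule.coe_smul, RingHom.id_apply, Prod.smul_mk, Algebra.smul_def]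
      ring

theorem kerMap_injective {s₁ s₂ : F} {D : Divisor K F} (hs₁ : s₁ ∈ L D) (hs₂ : s₂ ∈ L D)
    (E : Divisor K F) (h2 : s₂ ≠ 0) : Function.Injective (kerMap hs₁ hs₂ E) := by
  intro h h' hh
  have h1 := congrArg (fun p : L E × L E => (p.1 : F)) hh
  simp only [kerMap, LinearMap.coe_mk, AddHom.coe_mk] at h1
  exact Subtype.ext (mul_left_cancel₀ h2 h1)

theorem range_kerMap {s₁ s₂ : F} {D : Divisor K F} (hs₁ : s₁ ∈ L D) (hs₂ : s₂ ∈ L D)
    (E : Divisor K F) (h1 : s₁ ≠ 0) (h2 : s₂ ≠ 0) (hp : IsPencil s₁ s₂ D) :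
    LinearMap.range (kerMap hs₁ hs₂ E) = LinearMap.ker (pencilMap s₁ s₂ E) := by
  apply le_antisymm
  · rintro _ ⟨h, rfl⟩
    rw [LinearMap.mem_ker, pencilMap_apply]
    simp only [kerMap, LinearMap.coe_mk, AddHom.coe_mk]
    ring
  · intro p hpk
    rw [LinearMap.mem_ker, pencilMap_apply] at hpk
    -- `h = f₁ / s₂ = - f₂ / s₁`
    have hrel : (p.1 : F) / s₂ = -(p.2 : F) / s₁ := by
      field_simp
      linear_combination hpk
    have hmem : (p.1 : F) / s₂ ∈ L (E - D) := by
      intro v
      rw [Finsupp.sub_apply, sub_eq_add_neg, exp_add, exp_neg]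
      rcases hp v with hv | hv
      · rw [hrel, map_div₀, Valuation.map_neg, hv, div_eq_mul_inv]
        exact mul_le_mul_left (p.2.2 v) _
      · rw [map_div₀, hv, div_eq_mul_inv]
        exact mul_le_mul_left (p.1.2 v) _
    refine ⟨⟨(p.1 : F) / s₂, hmem⟩, ?_⟩
    ext
    · simp only [kerMap, LinearMap.coe_mk, AddHom.coe_mk]
      field_simp
    · simp only [kerMap, LinearMap.coe_mk, AddHom.coe_mk]
      rw [hrel]
      field_simp

end Fermat.Agent.S17.H8
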