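import Fermat.Agent.S17.H8_W14
import Fermat.Agent.S17.W2.Final
import Fermat.Agent.Lib.H25_HermiteMinkowski
import Fermat.Agent.S37.H36_Wiring

/-!
# S17, part W: weak Mordell–Weil from the two open leaves (helper8)

* `stmt_unram_of_red` (W3): `Stmt_unram N n` from the G-RED reduction packages `S37.RedPackage N n ℓ A`.
* `stmt_weakMW_of` : `Stmt_weakMW N n` from GEO (S17-W2) and the G-RED reduction packages.
  W1, W4 (`H8_W14`), W5 (`Lib.H25_HermiteMinkowski`), and the rest of W2 are discharged.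
-/

set_option autoImplicit false

noncomputable section

namespace Fermat.Agent.S17.H8

open AlgebraicCurve ModularCurve

/-- **W3** from the G-RED reduction packages. -/
theorem stmt_unram_of_red (N n : ℕ) [NeZero N]
    (hred : ∀ ℓ : ℕ, (hℓ : ℓ.Prime) → ¬ ℓ ∣ N * n →
      ∀ A : ValuationSubring (AlgebraicClosure ℚ), A.LiesOverPrime ℓ →
        haveI : NeZero ℓ := ⟨hℓ.ne_zero⟩
        Fermat.Agent.S37.RedPackage N n ℓ A) :
    Fermat.Agent.S17.Stmt_unram N n := by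
  intro ℓ hℓ hℓn A hA σ hσ y hy
  have hℓ' : ¬ ℓ ∣ N * n := by rwa [mul_comm]
  obtain ⟨Y, _, red, σ₀, -, hin, -, hinj, -⟩ := hred ℓ hℓ hℓ' A hA
  have hgal : σ • (n • y) = n • (σ • y) :=
    map_nsmul (DistribSMul.toAddMonoidHom (JZero N) σ) n y
  have h1 : n ^ 1 • (σ • y - y) = 0 := by
    rw [pow_one, nsmul_sub, ← hgal, hy σ, sub_self]
  have h2 : red (σ • y - y) = 0 := by
    rw [map_sub, hin σ hσ y, sub_self]
  exact sub_eq_zero.1 (hinj _ ⟨1, h1⟩ h2)

/-- **Weak Mordell–Weil** for `J₀(N)` from GEO and G-RED. -/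
theorem stmt_weakMW_of (N n : ℕ) [NeZero N] (hn : n ≠ 0)
    (hGEO : ∀ _ : Algebra (AlgebraicClosure ℚ) ℂ, Fermat.Agent.S17.W2.Stmt_GEO ℂ N)
    (hred : ∀ ℓ : ℕ, (hℓ : ℓ.Prime) → ¬ ℓ ∣ N * n →
      ∀ A : ValuationSubring (AlgebraicClosure ℚ), A.LiesOverPrime ℓ →
        haveI : NeZero ℓ := ⟨hℓ.ne_zero⟩
        Fermat.Agent.S37.RedPackage N n ℓ A) :
    Fermat.Agent.S17.Stmt_weakMW N n :=
  Fermat.Agent.S17.weakMW_of_inputs N n (Nat.mul_ne_zero hn (NeZero.ne N))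
    (stmt_torsion_finite N n hn) (Fermat.Agent.S17.W2.stmt_divisible_of N n hn hGEO)
    (stmt_unram_of_red N n hred) (stmt_open_stab N) Fermat.Agent.Lib.H25HM.stmt_HM

end Fermat.Agent.S17.H8
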