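import Fermat.Agent.S17.H8_WMW
import Fermat.Agent.RED.H36_AllRed

/-!
# S17, part W: weak Mordell–Weil from GEO alone (helper8)

G-RED is unconditional (`RED.H36.allRed`), hence so is W3.

* `stmt_unram N n : Stmt_unram N n` (W3), unconditional.
* `stmt_weakMW_of_geo` : `Stmt_weakMW N n` from the single open leaf GEO of S17-W2.
-/

set_option autoImplicit false

noncomputable section

namespace Fermat.Agent.S17.H8

open AlgebraicCurve ModularCurve

/-- **W3**, unconditional. -/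
theorem stmt_unram (N n : ℕ) [NeZero N] : Fermat.Agent.S17.Stmt_unram N n :=
  stmt_unram_of_red N n (fun ℓ hℓ hNn A hA =>
    haveI : NeZero ℓ := ⟨hℓ.ne_zero⟩
    Fermat.Agent.RED.H36.allRed N n ℓ hℓ hNn A hA)

/-- **Weak Mordell–Weil** for `J₀(N)` from GEO. -/
theorem stmt_weakMW_of_geo (N n : ℕ) [NeZero N] (hn : n ≠ 0)
    (hGEO : ∀ _ : Algebra (AlgebraicClosure ℚ) ℂ, Fermat.Agent.S17.W2.Stmt_GEO ℂ N) :
    Fermat.Agent.S17.Stmt_weakMW N n :=
  stmt_weakMW_of N n hn hGEO (fun ℓ hℓ hNn A hA =>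
    haveI : NeZero ℓ := ⟨hℓ.ne_zero⟩
    Fermat.Agent.RED.H36.allRed N n ℓ hℓ hNn A hA)

end Fermat.Agent.S17.H8
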