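import Fermat.Agent.S17.H8_WMW2
import Fermat.Agent.S17.W2.H75_GeoFinal

/-!
# S17, part W: weak Mordell–Weil for `J₀(N)`, unconditional (helper8)

`stmt_weakMW N n hn : Stmt_weakMW N n` for every `N ≠ 0`, `n ≠ 0`: the subgroup `n J₀(N)(ℚ)` has
finite index in `J₀(N)(ℚ)`.

Inputs: W1 `H8.stmt_torsion_finite` (G-TOR), W2 `W2.H75.stmt_divisible` (orbit route: helper8 CORE,
helper18 + helper75 GEO, helper56 + helper41 FT, helper75 A), W3 `H8.stmt_unram` (G-RED),
W4 `H8.stmt_open_stab`, W5 `Lib.H25HM.stmt_HM` (helper25), glue `weakMW_of_inputs` (helper71).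
-/

set_option autoImplicit false

noncomputable section

namespace Fermat.Agent.S17.H8

open AlgebraicCurve ModularCurve

/-- **Weak Mordell–Weil** for `J₀(N)`, unconditional. -/
theorem stmt_weakMW (N n : ℕ) [NeZero N] (hn : n ≠ 0) : Fermat.Agent.S17.Stmt_weakMW N n :=
  Fermat.Agent.S17.weakMW_of_inputs N n (Nat.mul_ne_zero hn (NeZero.ne N))
    (stmt_torsion_finite N n hn) (Fermat.Agent.S17.W2.H75.stmt_divisible N n hn)
    (stmt_unram N n) (stmt_open_stab N) Fermat.Agent.Lib.H25HM.stmt_HM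

end Fermat.Agent.S17.H8
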